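/-
S56 block (F), F-E part 1: the module `E_c = (k[ε])²` of the infinitesimal lift `(1 + ε c) r`, written as pairs `(α, β) ↔ α + ε β`,
and the bridge from `C.FlatAt r c p` to `FlatMod` / dual pairs.   SHARED BY F-C (ordinary) AND F-D (supersingular).
-/
import Fermat.Agent.S56.C.LocalDefs
import Fermat.Agent.S56.F.Order.Bridge

set_option autoImplicit false

open Matrix Fermat.Agent.PT.Local

noncomputable section

namespace Fermat.Agent.S56.F

open Fermat.Agent.S53 (G M2 HasMatrix)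
open Fermat.Agent.S56.C (ad rm IsCoc liftMat)

variable {k : Type} [Field k]

/-- `(k[ε])²`, `(α, β) ↔ α + ε β`. -/
abbrev E2 (k : Type) : Type := (Fin 2 → k) × (Fin 2 → k)

/-- The action of `σ` through `(1 + ε c σ) r σ`. -/
def actE (r : G →* GL (Fin 2) k) (c : G → M2 k) (σ : G) : E2 k →+ E2 k where
  toFun x := (rm r σ *ᵥ x.1, rm r σ *ᵥ x.2 + (c σ * rm r σ) *ᵥ x.1)
  map_zero' := by simp
  map_add' x y := by
    refine Prod.ext ?_ ?_
    · simp only [Prod.fst_add, Matrix.mulVec_add]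
    · simp only [Prod.snd_add, Prod.fst_add, Matrix.mulVec_add]
      abel

@[simp] theorem actE_fst (r : G →* GL (Fin 2) k) (c : G → M2 k) (σ : G) (x : E2 k) :
    (actE r c σ x).1 = rm r σ *ᵥ x.1 := rfl

@[simp] theorem actE_snd (r : G →* GL (Fin 2) k) (c : G → M2 k) (σ : G) (x : E2 k) :
    (actE r c σ x).2 = rm r σ *ᵥ x.2 + (c σ * rm r σ) *ᵥ x.1 := rfl

/-- multiplication by `ε`. -/
def epsE : E2 k →+ E2 k where
  toFun x := (0, x.1)
  map_zero' := rfl
  map_add' _ _ := by simp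

/-- scalar multiplication by `k` commutes with everything: `E2 k` is a `k`-module (product instance). -/
theorem actE_smul (r : G →* GL (Fin 2) k) (c : G → M2 k) (σ : G) (a : k) (x : E2 k) :
    actE r c σ (a • x) = a • actE r c σ x := by
  refine Prod.ext ?_ ?_
  · simp only [actE_fst, Prod.smul_fst, Matrix.mulVec_smul]
  · simp only [actE_snd, Prod.smul_fst, Prod.smul_snd, Matrix.mulVec_smul, smul_add]

theorem actE_epsE (r : G →* GL (Fin 2) k) (c : G → M2 k) (σ : G) (x : E2 k) :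
    actE r c σ (epsE x) = epsE (actE r c σ x) := by
  ext i <;> simp [epsE]

theorem actE_one (r : G →* GL (Fin 2) k) {c : G → M2 k} (hc : IsCoc r c) (x : E2 k) : actE r c 1 x = x := by
  have h1 : rm r 1 = 1 := by simp [rm]
  have h2 : c 1 = 0 := by
    have h := hc 1 1
    rw [mul_one, _root_.map_one] at h
    have h2 : ad (1 : GL (Fin 2) k) (c 1) = c 1 := by simp [ad]
    rw [h2] at h
    simpa using h
  refine Prod.ext ?_ ?_
  · rw [actE_fst, h1, Matrix.one_mulVec]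
  · rw [actE_snd, h1, h2, Matrix.one_mulVec, Matrix.zero_mul, Matrix.zero_mulVec, add_zero]

theorem actE_mul (r : G →* GL (Fin 2) k) {c : G → M2 k} (hc : IsCoc r c) (σ τ : G) (x : E2 k) :
    actE r c (σ * τ) x = actE r c σ (actE r c τ x) := by
  have h1 : rm r (σ * τ) = rm r σ * rm r τ := by simp [rm]
  have h3 : (((r σ)⁻¹ : GL (Fin 2) k) : M2 k) * rm r σ = 1 := by
    rw [rm, ← Units.val_mul, inv_mul_cancel, Units.val_one]
  have h2 : c (σ * τ) * (rm r σ * rm r τ) = c σ * rm r σ * rm r τ + rm r σ * (c τ * rm r τ) := by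
    rw [hc σ τ, ad, add_mul]
    congr 1
    · rw [mul_assoc]
    · show rm r σ * c τ * _ * _ = _
      rw [mul_assoc (rm r σ * c τ), ← mul_assoc _ (rm r σ) (rm r τ), h3, one_mul, mul_assoc]
  refine Prod.ext ?_ ?_
  · rw [actE_fst, actE_fst, actE_fst, h1, Matrix.mulVec_mulVec]
  · rw [actE_snd, actE_snd, actE_snd, actE_fst, h1, h2, Matrix.mulVec_add, Matrix.add_mulVec,
      Matrix.mulVec_mulVec, Matrix.mulVec_mulVec, Matrix.mulVec_mulVec]
    abel

/-- `(k[ε])² ≃ k² × k²`. -/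
def E2_split : (Fin 2 → DualNumber k) ≃+ E2 k where
  toFun u := (fun i => (u i).fst, fun i => (u i).snd)
  invFun x := fun i => (x.1 i, x.2 i)
  left_inv _ := rfl
  right_inv _ := rfl
  map_add' _ _ := rfl

theorem E2_split_liftMat (r : G →* GL (Fin 2) k) (c : G → M2 k) (σ : G)
    (u : Fin 2 → DualNumber k) :
    E2_split (liftMat r c σ *ᵥ u) = actE r c σ (E2_split u) := by
  refine Prod.ext ?_ ?_
  · funext i
    show (((liftMat r c σ) *ᵥ u) i).fst = (rm r σ *ᵥ fun j => (u j).fst) i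
    simp [liftMat, Matrix.mulVec, dotProduct, Fin.sum_univ_two]
  · funext i
    show (((liftMat r c σ) *ᵥ u) i).snd
      = (rm r σ *ᵥ (fun j => (u j).snd)) i + ((c σ * rm r σ) *ᵥ fun j => (u j).fst) i
    simp only [liftMat, Matrix.mulVec, dotProduct, Fin.sum_univ_two, Matrix.add_apply,
      Matrix.map_apply, TrivSqZeroExt.snd_add, TrivSqZeroExt.snd_mul, TrivSqZeroExt.fst_add,
      TrivSqZeroExt.fst_inl, TrivSqZeroExt.fst_inr, TrivSqZeroExt.snd_inl, TrivSqZeroExt.snd_inr,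
      add_zero, zero_add, smul_eq_mul, MulOpposite.smul_eq_mul_unop, MulOpposite.unop_op]
    ring

/-- **Bridge.**  `IsFlatAt` for the ideal `⊥` of `k[ε]` (finite quotient since `k` is finite); `ρ.V ⧸ (⊥ • ⊤) ≃ ρ.V ≃ (Fin 2 → k[ε]) ≃ E2 k` via the
basis `b` of `HasMatrix`, `u ↦ (fun i => (u i).fst, fun i => (u i).snd)`; `b.repr (ρ σ v) = liftMat r c σ *ᵥ b.repr v`. -/
theorem flatMod_of_flatAt [Finite k] {p : ℕ} {r : G →* GL (Fin 2) k} {c : G → M2 k} (h : C.FlatAt r c p) :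
    FlatMod p (E2 k) (actE r c) := by
  obtain ⟨ρ, ⟨b, hb⟩, -, hflat⟩ := h
  have hfinD : Finite (DualNumber k) := inferInstanceAs (Finite (k × k))
  have hfinQ : Finite (DualNumber k ⧸ (⊥ : Ideal (DualNumber k))) :=
    Finite.of_surjective _ (Ideal.Quotient.mk_surjective (I := (⊥ : Ideal (DualNumber k))))
  obtain ⟨H, i1, i2, h1, h2, h3, e, hadd, hact⟩ := hflat ⊥ hfinQ
  have hbot : ((⊥ : Ideal (DualNumber k)) • (⊤ : Submodule (DualNumber k) ρ.V)) = ⊥ :=
    Submodule.bot_smul _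
  let Φ : (ρ.V ⧸ ((⊥ : Ideal (DualNumber k)) • (⊤ : Submodule (DualNumber k) ρ.V))) ≃+ E2 k :=
    ((Submodule.quotEquivOfEqBot _ hbot).toAddEquiv.trans b.equivFun.toAddEquiv).trans E2_split
  have hΦ : ∀ v : ρ.V, Φ (Submodule.Quotient.mk v) = E2_split (b.repr v) := fun v => rfl
  have hequi : ∀ (σ : G) y, Φ (ρ.levelAction ⊥ σ y) = actE r c σ (Φ y) := by
    intro σ y
    obtain ⟨v, rfl⟩ := Submodule.Quotient.mk_surjective _ y
    have h4 : ρ.levelAction ⊥ σ (Submodule.Quotient.mk v) = Submodule.Quotient.mk (ρ.ρ σ v) :=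
      Submodule.mapQ_apply _ _ _ _
    rw [h4, hΦ, hΦ, ← E2_split_liftMat, ← hb σ, LinearMap.toMatrix_mulVec_repr]
  refine ⟨H, i1, i2, h1, h2, h3, e.trans Φ.toEquiv, ?_, ?_⟩
  · intro f g
    show Φ (e (f * g)) = Φ (e f) + Φ (e g)
    rw [hadd, map_add]
  · intro σ f g hfg
    show Φ (e g) = actE r c σ (Φ (e f))
    rw [hact σ f g hfg, hequi]

/-- The dual pair of a flat lift, over any subgroup `Γ`. -/
theorem exists_dualPair_of_flatAt [Finite k] (P : Plc) (Γ : Subgroup GQ) {r : G →* GL (Fin 2) k} {c : G → M2 k}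
    (h : C.FlatAt r c P.ℓ) :
    ∃ (X' : Type) (_ : AddCommGroup X') (_ : Finite X') (𝒟 : DualPair P Γ (E2 k) X'),
      ∀ (γ : Γ) (x : E2 k), 𝒟.act γ x = actE r c γ x :=
  exists_dualPair_of_flatMod P Γ (actE r c) (flatMod_of_flatAt h)

/-- `det r` is the cyclotomic character mod `p`, elementary form. -/
def DetOmega (p : ℕ) (r : G →* GL (Fin 2) k) : Prop :=
  ∀ (σ : G) (a : ℕ), (∀ μ : Qb, μ ^ p = 1 → σ μ = μ ^ a) → (rm r σ).det = (a : k)

/-- all eigenvalues of `r` lie in `k`. -/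
def Split (r : G →* GL (Fin 2) k) : Prop :=
  ∀ σ : G, ∃ α β : k, (rm r σ).charpoly = (Polynomial.X - Polynomial.C α) * (Polynomial.X - Polynomial.C β)

/-- CASE R: some line is stable under the decomposition group. -/
def CaseR (P : Plc) (r : G →* GL (Fin 2) k) : Prop :=
  ∃ v : Fin 2 → k, v ≠ 0 ∧ ∀ σ ∈ P.dec, ∃ x : k, rm r σ *ᵥ v = x • v

/-- The predicate on cocycles analysed by block (F). -/
def PrFlat (p : ℕ) (r : G →* GL (Fin 2) k) (c : G → M2 k) : Prop :=
  IsCoc r c ∧ C.Smooth c ∧ C.TraceZero c ∧ C.FlatAt r c p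

end Fermat.Agent.S56.F

end
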