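/-
S56, block (F), item B8: fixed points of a `q`-semilinear operator on a finite dimensional vector space.
Pure algebra (Mathlib only).
-/
import Mathlib

set_option autoImplicit false

namespace Fermat.Agent.S56.F

open Polynomial

/-- The solutions of `a ^ q = a` in a field: at most `q` of them (`q ≥ 2`). -/
theorem Semilin_card_roots_le {FF : Type*} [Field FF] {q : ℕ} (hq : 2 ≤ q) :
    Finite {a : FF // a ^ q = a} ∧ Nat.card {a : FF // a ^ q = a} ≤ q := by
  classical
  have hq1 : 1 < q := hq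
  have hne : (X ^ q - X : FF[X]) ≠ 0 := FiniteField.X_pow_card_sub_X_ne_zero FF hq1
  have hsub : {a : FF | a ^ q = a} ⊆ ((X ^ q - X : FF[X]).roots.toFinset : Set FF) := by
    intro a ha
    have ha' : a ^ q = a := ha
    rw [Finset.mem_coe, Multiset.mem_toFinset, mem_roots hne]
    simp [ha']
  have hfin : {a : FF | a ^ q = a}.Finite := (Finset.finite_toSet _).subset hsub
  refine ⟨hfin, ?_⟩
  have h1 : Nat.card {a : FF // a ^ q = a} = {a : FF | a ^ q = a}.ncard := rfl
  rw [h1]
  calc {a : FF | a ^ q = a}.ncard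
      ≤ ((X ^ q - X : FF[X]).roots.toFinset : Set FF).ncard :=
        Set.ncard_le_ncard hsub (Finset.finite_toSet _)
    _ = (X ^ q - X : FF[X]).roots.toFinset.card := Set.ncard_coe_finset _
    _ ≤ Multiset.card (X ^ q - X : FF[X]).roots := Multiset.toFinset_card_le _
    _ ≤ (X ^ q - X : FF[X]).natDegree := card_roots' _
    _ = q := FiniteField.X_pow_card_sub_X_natDegree_eq FF hq1

/-- **(B8)** A `q`-semilinear additive operator on a `d`-dimensional vector space has at most `q ^ d`
fixed points. -/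
theorem card_fix_le {FF V : Type*} [Field FF] [AddCommGroup V] [Module FF V]
    [FiniteDimensional FF V] {q : ℕ} (hq : 2 ≤ q) (Φ : V →+ V)
    (hΦ : ∀ (c : FF) (x : V), Φ (c • x) = c ^ q • Φ x) :
    Finite {x : V // Φ x = x} ∧ Nat.card {x : V // Φ x = x} ≤ q ^ Module.finrank FF V := by
  classical
  obtain ⟨b, hbS, hspan, hli⟩ := exists_linearIndependent FF {x : V | Φ x = x}
  have hbfin : Finite b := hli.finite
  let _ := Fintype.ofFinite b
  have hcard : Fintype.card b ≤ Module.finrank FF V := hli.fintype_card_le_finrank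
  have hbfix : ∀ i : b, Φ (i : V) = i := fun i => hbS i.2
  have hrep : ∀ y : {x : V // Φ x = x}, ∃ c : b → FF, (y : V) = ∑ i, c i • (i : V) := by
    intro y
    have h1 : (y : V) ∈ Submodule.span FF b := by
      rw [hspan]
      exact Submodule.subset_span y.2
    rw [← Subtype.range_coe (s := b)] at h1
    obtain ⟨c, hc⟩ := (Submodule.mem_span_range_iff_exists_fun FF).1 h1
    exact ⟨c, hc.symm⟩
  choose c hc using hrep
  have hroot : ∀ y i, c y i ^ q = c y i := by
    intro y i
    have h1 := congrArg Φ (hc y)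
    rw [map_sum, y.2] at h1
    simp only [hΦ, hbfix] at h1
    have h2 : ∑ i, (c y i ^ q - c y i) • (i : V) = 0 := by
      simp only [sub_smul, Finset.sum_sub_distrib]
      rw [← h1, ← hc y, sub_self]
    exact sub_eq_zero.mp (Fintype.linearIndependent_iff.1 hli _ h2 i)
  obtain ⟨hRfin, hRcard⟩ := Semilin_card_roots_le (FF := FF) hq
  let f : {x : V // Φ x = x} → (b → {a : FF // a ^ q = a}) := fun y i => ⟨c y i, hroot y i⟩
  have hf : Function.Injective f := by
    intro y y' hyy
    apply Subtype.ext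
    rw [hc y, hc y']
    refine Finset.sum_congr rfl fun i _ => ?_
    have := congrArg (fun g => (g i).1) hyy
    exact congrArg (· • (i : V)) this
  refine ⟨Finite.of_injective f hf, ?_⟩
  calc Nat.card {x : V // Φ x = x} ≤ Nat.card (b → {a : FF // a ^ q = a}) :=
        Nat.card_le_card_of_injective f hf
    _ = Nat.card {a : FF // a ^ q = a} ^ Fintype.card b := by
        rw [Nat.card_fun, Nat.card_eq_fintype_card (α := b)]
    _ ≤ q ^ Fintype.card b := Nat.pow_le_pow_left hRcard _
    _ ≤ q ^ Module.finrank FF V := Nat.pow_le_pow_right (by omega) hcard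

/-- (B8), injective form: whatever injects into the fixed points is bounded. -/
theorem card_le_of_injective_fix {FF V : Type*} [Field FF] [AddCommGroup V] [Module FF V]
    [FiniteDimensional FF V] {q : ℕ} (hq : 2 ≤ q) (Φ : V →+ V)
    (hΦ : ∀ (c : FF) (x : V), Φ (c • x) = c ^ q • Φ x) {X : Type*} (g : X → V)
    (hg : Function.Injective g) (hfix : ∀ x, Φ (g x) = g x) :
    Finite X ∧ Nat.card X ≤ q ^ Module.finrank FF V := by
  obtain ⟨h1, h2⟩ := card_fix_le hq Φ hΦ
  let g' : X → {x : V // Φ x = x} := fun x => ⟨g x, hfix x⟩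
  have hg' : Function.Injective g' := fun x y h => hg (congrArg Subtype.val h)
  exact ⟨Finite.of_injective g' hg', (Nat.card_le_card_of_injective g' hg').trans h2⟩

section Hom

variable {k0 FF U : Type*} [Field k0] [Field FF] [Algebra k0 FF] [AddCommGroup U] [Module k0 U]
  [FiniteDimensional k0 U]

/-- `dim_FF Hom_{k0}(U, FF) = dim_{k0} U`. -/
theorem Semilin_finrank_hom : Module.finrank FF (U →ₗ[k0] FF) = Module.finrank k0 U := by
  rw [Module.finrank_linearMap k0 FF U FF, Module.finrank_self, mul_one]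

instance Semilin_finite_hom : FiniteDimensional FF (U →ₗ[k0] FF) :=
  Module.Finite.linearMap k0 FF U FF

/-- (B8-hom) semilinear operators on `Hom_{k0}(U, FF)`. -/
theorem card_fix_hom_le {q : ℕ} (hq : 2 ≤ q) (Φ : (U →ₗ[k0] FF) →+ (U →ₗ[k0] FF))
    (hΦ : ∀ (c : FF) (x : U →ₗ[k0] FF), Φ (c • x) = c ^ q • Φ x) :
    Finite {x : U →ₗ[k0] FF // Φ x = x} ∧
      Nat.card {x : U →ₗ[k0] FF // Φ x = x} ≤ q ^ Module.finrank k0 U := by
  have h := card_fix_le hq Φ hΦ
  rwa [Semilin_finrank_hom] at h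

/-- (B8-hom), `q = #k0`: at most `#U` fixed points. -/
theorem card_fix_hom_le_card [Finite k0] (Φ : (U →ₗ[k0] FF) →+ (U →ₗ[k0] FF))
    (hΦ : ∀ (c : FF) (x : U →ₗ[k0] FF), Φ (c • x) = c ^ Nat.card k0 • Φ x) :
    Finite {x : U →ₗ[k0] FF // Φ x = x} ∧
      Nat.card {x : U →ₗ[k0] FF // Φ x = x} ≤ Nat.card U := by
  have hq : 2 ≤ Nat.card k0 := Finite.one_lt_card
  have h := card_fix_hom_le hq Φ hΦ
  rwa [← Module.natCard_eq_pow_finrank (K := k0) (V := U)] at h

/-- (B8-hom), injective form with `q = #k0`. -/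
theorem card_le_card_of_injective_fix_hom [Finite k0] (Φ : (U →ₗ[k0] FF) →+ (U →ₗ[k0] FF))
    (hΦ : ∀ (c : FF) (x : U →ₗ[k0] FF), Φ (c • x) = c ^ Nat.card k0 • Φ x)
    {X : Type*} (g : X → (U →ₗ[k0] FF)) (hg : Function.Injective g)
    (hfix : ∀ x, Φ (g x) = g x) : Finite X ∧ Nat.card X ≤ Nat.card U := by
  obtain ⟨h1, h2⟩ := card_fix_hom_le_card Φ hΦ
  let g' : X → {x : U →ₗ[k0] FF // Φ x = x} := fun x => ⟨g x, hfix x⟩
  have hg' : Function.Injective g' := fun x y h => hg (congrArg Subtype.val h)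
  exact ⟨Finite.of_injective g' hg', (Nat.card_le_card_of_injective g' hg').trans h2⟩

end Hom

end Fermat.Agent.S56.F
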