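/-
S56 block (F): THE MODEL of the infinitesimal lift `(1 + ε c) r` as a finite Galois module (shared by F-C, F-D, F-E).
`E2 k = k² × k²`, `(x₀, x₁) ↔ x₀ + ε x₁`, `σ (x₀, x₁) = (r σ x₀, r σ x₁ + c σ r σ x₀)`.
-/
import Fermat.Agent.S56.F.E2

set_option autoImplicit false

open Fermat.Agent.PT.Local Matrix
open Fermat.Agent.S53 (G M2 HasMatrix)
open Fermat.Agent.S56.C (ad rm liftMat)

noncomputable section

namespace Fermat.Agent.S56.F

variable {k : Type} [Field k]

/-- the coboundary of `X`. -/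
def cob (r : G →* GL (Fin 2) k) (X : M2 k) : G → M2 k := fun σ => ad (r σ) X - X

/-- the conjugate representation `g r g⁻¹`. -/
def conjR (g : GL (Fin 2) k) (r : G →* GL (Fin 2) k) : G →* GL (Fin 2) k :=
  (MulAut.conj g).toMonoidHom.comp r

/-- the conjugate function `g c g⁻¹`. -/
def conjC (g : GL (Fin 2) k) (c : G → M2 k) : G → M2 k := fun σ => ad g (c σ)

theorem conjR_apply (g : GL (Fin 2) k) (r : G →* GL (Fin 2) k) (σ : G) :
    conjR g r σ = g * r σ * g⁻¹ := rfl

/-- transport of `FlatMod` along an equivariant isomorphism. -/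
theorem FlatMod.congr {p : ℕ} {X Y : Type} [AddCommGroup X] [AddCommGroup Y] {act : GQ → X →+ X}
    {act' : GQ → Y →+ Y} (ψ : X ≃+ Y) (hψ : ∀ σ x, ψ (act σ x) = act' σ (ψ x))
    (h : FlatMod p X act) : FlatMod p Y act' := by
  obtain ⟨H, i1, i2, h1, h2, h3, e, he, he'⟩ := h
  refine ⟨H, i1, i2, h1, h2, h3, e.trans ψ.toEquiv, fun f g => ?_, fun σ f g hfg => ?_⟩
  · show ψ (e (f * g)) = ψ (e f) + ψ (e g)
    rw [he, map_add]
  · show ψ (e g) = act' σ (ψ (e f))
    rw [he' σ f g hfg, hψ]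

/-- changing the cocycle by a coboundary: `ψ (x₀, x₁) = (x₀, x₁ - X x₀)`. -/
theorem flatMod_add_cob {p : ℕ} (r : G →* GL (Fin 2) k) (c : G → M2 k) (X : M2 k)
    (h : FlatMod p (E2 k) (actE r c)) : FlatMod p (E2 k) (actE r (c + cob r X)) := by
  let ψ : E2 k ≃+ E2 k :=
    { toFun := fun x => (x.1, x.2 - X *ᵥ x.1)
      invFun := fun x => (x.1, x.2 + X *ᵥ x.1)
      left_inv := fun x => Prod.ext rfl (sub_add_cancel _ _)
      right_inv := fun x => Prod.ext rfl (add_sub_cancel_right _ _)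
      map_add' := fun x y => by
        refine Prod.ext rfl ?_
        simp only [Prod.snd_add, Prod.fst_add, mulVec_add]
        abel }
  refine FlatMod.congr ψ (fun σ x => ?_) h
  have had : ad (r σ) X * rm r σ = rm r σ * X := by
    rw [ad, Matrix.mul_assoc, rm, ← Units.val_mul, inv_mul_cancel, Units.val_one, Matrix.mul_one]
  change ((actE r c σ x).1, (actE r c σ x).2 - X *ᵥ (actE r c σ x).1) =
    actE r (c + cob r X) σ (x.1, x.2 - X *ᵥ x.1)
  refine Prod.ext rfl ?_
  simp only [actE_fst, actE_snd, Pi.add_apply, cob, Matrix.add_mul, Matrix.sub_mul, had, mulVec_sub,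
    add_mulVec, sub_mulVec, mulVec_mulVec]
  abel

/-- conjugation: `ψ (x₀, x₁) = (g x₀, g x₁)`. -/
theorem flatMod_conj {p : ℕ} (g : GL (Fin 2) k) (r : G →* GL (Fin 2) k) (c : G → M2 k)
    (h : FlatMod p (E2 k) (actE r c)) : FlatMod p (E2 k) (actE (conjR g r) (conjC g c)) := by
  have hgi : ((g⁻¹ : GL (Fin 2) k) : M2 k) * (g : M2 k) = 1 := by
    rw [← Units.val_mul, inv_mul_cancel, Units.val_one]
  have hig : (g : M2 k) * ((g⁻¹ : GL (Fin 2) k) : M2 k) = 1 := by
    rw [← Units.val_mul, mul_inv_cancel, Units.val_one]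
  let ψ : E2 k ≃+ E2 k :=
    { toFun := fun x => ((g : M2 k) *ᵥ x.1, (g : M2 k) *ᵥ x.2)
      invFun := fun x => (((g⁻¹ : GL (Fin 2) k) : M2 k) *ᵥ x.1, ((g⁻¹ : GL (Fin 2) k) : M2 k) *ᵥ x.2)
      left_inv := fun x => by
        refine Prod.ext ?_ ?_
        · simp only [mulVec_mulVec, hgi, one_mulVec]
        · simp only [mulVec_mulVec, hgi, one_mulVec]
      right_inv := fun x => by
        refine Prod.ext ?_ ?_
        · simp only [mulVec_mulVec, hig, one_mulVec]
        · simp only [mulVec_mulVec, hig, one_mulVec]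
      map_add' := fun x y => by
        refine Prod.ext ?_ ?_
        · simp only [Prod.fst_add, mulVec_add]
        · simp only [Prod.snd_add, mulVec_add] }
  refine FlatMod.congr ψ (fun σ x => ?_) h
  have hrm : rm (conjR g r) σ = (g : M2 k) * rm r σ * ((g⁻¹ : GL (Fin 2) k) : M2 k) := by
    rw [rm, conjR_apply, Units.val_mul, Units.val_mul]
    rfl
  have h1 : rm (conjR g r) σ * (g : M2 k) = (g : M2 k) * rm r σ := by
    rw [hrm, Matrix.mul_assoc, hgi, Matrix.mul_one]
  have h2 : conjC g c σ * rm (conjR g r) σ * (g : M2 k) = (g : M2 k) * (c σ * rm r σ) := by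
    rw [Matrix.mul_assoc, h1, conjC, ad, Matrix.mul_assoc, ← Matrix.mul_assoc _ (g : M2 k), hgi,
      Matrix.one_mul, Matrix.mul_assoc]
  change ((g : M2 k) *ᵥ (actE r c σ x).1, (g : M2 k) *ᵥ (actE r c σ x).2) =
    actE (conjR g r) (conjC g c) σ ((g : M2 k) *ᵥ x.1, (g : M2 k) *ᵥ x.2)
  refine Prod.ext ?_ ?_
  · simp only [actE_fst, mulVec_mulVec, h1]
  · simp only [actE_snd, mulVec_mulVec, mulVec_add, h1, h2]

end Fermat.Agent.S56.F

end
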