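/-
S56 block (F), F-E: THE EXPORT of block (F): the flat local condition at `p`, in the shape `B.FFunStatement`.
CASE R (a `D`-stable line): `Ord.funContract`;  otherwise: `SS0.funContract`.
-/
import Fermat.Agent.S56.F.Ord.Fun
import Fermat.Agent.S56.F.SS0.Main
import Fermat.Agent.S56.B.LinkF

set_option autoImplicit false

namespace Fermat.Agent.S56.F

theorem flat_funContract : B.FFunStatement := by
  intro P hp2 k _ _ _ r hr hdet hs
  by_cases hR : CaseR P r
  · exact Ord.funContract P hp2 r hr hdet hR
  · exact SS0.funContract hp2 hr hdet hs hR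

end Fermat.Agent.S56.F
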